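import Mathlib
import Fermat.Prelude.Def_FLTPrelim_FreyPackage
import Fermat.Prelude.Def_FLTPrelim_GaloisRep
import Fermat.Prelude.Def_FLTPrelim_Ramification
import Fermat.Prelude.Def_FLTPrelim_CofixedLine
import Fermat.Prelude.Def_EllipticCurve_ZeroComponentAt
import Fermat.Prelude.Def_ExtCitation_AdmissibleExtension_v2

/-!
# Row S12 (Mazur's Steps 1, 2, 4 for the Frey curve): TOP assembly (architect helper915)

`s12_of_nodes` : the frozen statement S12 from three node statements

* `StartStatement` : a cofixed line `N` of the Frey representation (`17 ≤ p`) gives a stage-`1`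
                     datum: an isogenous curve `E₁ = E/N` with a rational point of order `p`;
* `StepStatement`  : frozen S15  ⟹  a stage-`k` datum gives a stage-`(k+1)` datum
                     (S15 + admissibility + landed S14 + quotient by the `μ_p`-complement);
* `EndStatement`   : stage-`k` data with bad primes inside a fixed finite set `S` have bounded `k`
                     (reduction at one good prime `ℓ₀ ∉ S`, `ℓ₀ ≠ p`).

A stage-`k` datum (`Stage p S k`) is an integral semistable Weierstrass model `W` with bad primes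
in `S`, bad at `2` and `3`, with a pointwise Galois-fixed cyclic subgroup `C` of order `p ^ k`, such
that Galois acts on `E[p] / C[p]` through the mod `p` cyclotomic character.
Everything in this file is sorry-free; the nodes are hypotheses.
-/

set_option autoImplicit false

noncomputable section

open WeierstrassCurve WeierstrassCurve.Affine WeierstrassCurve.Affine.Point

namespace Fermat.Agent.S12.Core

/-- The frozen statement S15 (Mazur's Step 3), as a proposition. -/
def S15Statement : Prop :=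
  ∀ {p : ℕ} (_ : p.Prime) (_ : p ∉ ({2, 3, 5, 7, 13} : Finset ℕ))
    (W : WeierstrassCurve ℤ) (_ : W.Δ ≠ 0)
    (Q : ((W.map (Int.castRingHom ℚ))⁄(AlgebraicClosure ℚ)).Point)
    (_ : ∀ σ : AlgebraicClosure ℚ ≃ₐ[ℚ] AlgebraicClosure ℚ, σ • Q = Q)
    (_ : addOrderOf Q = p)
    (_ : (2 : ℤ) ∣ W.Δ) (_ : ¬ (2 : ℤ) ∣ W.c₄)
    (_ : ∀ A : ValuationSubring (AlgebraicClosure ℚ), A.LiesOverPrime 2 →
      ¬ W.InZeroComponentAt A Q)
    (_ : (3 : ℤ) ∣ W.Δ) (_ : ¬ (3 : ℤ) ∣ W.c₄)
    (_ : ∀ A : ValuationSubring (AlgebraicClosure ℚ), A.LiesOverPrime 3 →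
      ¬ W.InZeroComponentAt A Q)
    {ℓ : ℕ} (_ : ℓ.Prime) (_ : ℓ ≠ p) (_ : (ℓ : ℤ) ∣ W.Δ) (_ : ¬ (ℓ : ℤ) ∣ W.c₄)
    (A : ValuationSubring (AlgebraicClosure ℚ)) (_ : A.LiesOverPrime ℓ),
    ¬ W.InZeroComponentAt A Q

/-- A stage of Mazur's chain of `p`-isogenies. -/
structure Stage (p : ℕ) [Fact p.Prime] (S : Finset ℕ) (k : ℕ) where
  /-- the integral model -/
  W : WeierstrassCurve ℤ
  hΔ : W.Δ ≠ 0
  /-- the bad primes lie in the fixed finite set `S` -/
  bad_mem : ∀ ℓ : ℕ, ℓ.Prime → (ℓ : ℤ) ∣ W.Δ → ℓ ∈ S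
  /-- the model is semistable at every prime -/
  semistable : ∀ ℓ : ℕ, ℓ.Prime → (ℓ : ℤ) ∣ W.Δ → ¬ (ℓ : ℤ) ∣ W.c₄
  bad_two : (2 : ℤ) ∣ W.Δ
  bad_three : (3 : ℤ) ∣ W.Δ
  /-- the rational cyclic subgroup of order `p ^ k` -/
  C : AddSubgroup ((W.map (Int.castRingHom ℚ))⁄(AlgebraicClosure ℚ)).Point
  fixed : ∀ σ : AlgebraicClosure ℚ ≃ₐ[ℚ] AlgebraicClosure ℚ, ∀ x ∈ C, σ • x = x
  card : Nat.card C = p ^ k
  cyclic : IsAddCyclic C
  /-- Galois acts on `E[p] / C[p]` through the mod `p` cyclotomic character -/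
  det : ∀ (σ : AlgebraicClosure ℚ ≃ₐ[ℚ] AlgebraicClosure ℚ)
    (x : ((W.map (Int.castRingHom ℚ))⁄(AlgebraicClosure ℚ)).Point), p • x = 0 →
      σ • x - ExtCitation.cycloExp p σ • x ∈ C

/-- **NODE START** (Mazur's Steps 1 and 2 for the Frey curve). -/
def StartStatement : Prop :=
  ∀ (P : FreyPackage), 17 ≤ P.p →
    HasGaloisStableCofixedLine (K := AlgebraicClosure ℚ) ℚ P.freyCurve P.p →
    ∃ S : Finset ℕ, haveI : Fact P.p.Prime := ⟨P.pp⟩; Nonempty (Stage P.p S 1)

/-- **NODE STEP** (Mazur's Step 4, one step of the chain; consumes frozen S15 and landed S14). -/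
def StepStatement : Prop :=
  S15Statement → ∀ (p : ℕ) [Fact p.Prime], 17 ≤ p → ∀ (S : Finset ℕ) (k : ℕ), 1 ≤ k →
    Stage p S k → Nonempty (Stage p S (k + 1))

/-- **NODE END**: the length of the chain is bounded in terms of `S` and `p`. -/
def EndStatement : Prop :=
  ∀ (p : ℕ) [Fact p.Prime] (S : Finset ℕ), ∃ B : ℕ, ∀ k : ℕ, Nonempty (Stage p S k) → p ^ k ≤ B

/-- **Row S12, TOP.**  The frozen statement S12 from frozen S15 and the three nodes. -/
theorem s12_of_nodes (hS15 : S15Statement) (hStart : StartStatement) (hStep : StepStatement)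
    (hEnd : EndStatement) (P : FreyPackage) (hp : 17 ≤ P.p) :
    ¬ HasGaloisStableCofixedLine (K := AlgebraicClosure ℚ) ℚ P.freyCurve P.p := by
  intro hline
  haveI : Fact P.p.Prime := ⟨P.pp⟩
  obtain ⟨S, h1⟩ := hStart P hp hline
  obtain ⟨B, hB⟩ := hEnd P.p S
  have hchain : ∀ k : ℕ, 1 ≤ k → Nonempty (Stage P.p S k) := by
    intro k hk
    induction k, hk using Nat.le_induction with
    | base => exact h1
    | succ k hk ih =>
      obtain ⟨s⟩ := ih
      exact hStep hS15 P.p hp S k hk s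
  have hlt : B < P.p ^ (B + 1) := by
    calc B < B + 1 := Nat.lt_succ_self B
      _ < P.p ^ (B + 1) := Nat.lt_pow_self P.pp.one_lt
  exact absurd (hB (B + 1) (hchain (B + 1) (Nat.succ_le_succ (Nat.zero_le B)))) (not_le.mpr hlt)

end Fermat.Agent.S12.Core
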